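import Fermat.Agent.Jacobian.Cech.ChartCR
import Fermat.Agent.Jacobian.Transfer
import Fermat.Agent.Jacobian.PatchedModule.Locus

/-!
# Acyclic classes
-/

set_option autoImplicit false

noncomputable section

universe u

open CategoryTheory AlgebraicGeometry TensorProduct

namespace Fermat.Agent.Jacobian

variable {k : Type u} [CommRing k] {C : Scheme.{u}} {c : C ⟶ Spec (CommRingCat.of k)}

namespace CurveChart

variable (D : CurveChart c)

/-- Sections of isomorphic cocycles, `k`-linearly. -/
def secEquiv {L M : LineCocycle C} (e : LineCocycle.Rel L M) (W : C.Opens) :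
    Sec c L W ≃ₗ[k] Sec c M W :=
  { (LineCocycle.Rel.sectEquiv (W := W) e).toAddEquiv with
    map_smul' := fun a s => (LineCocycle.Rel.sectEquiv (W := W) e).map_smul (baseHom c W a) s }

/-- Isomorphic cocycles have isomorphic complexes. -/
def cechIso {L M : LineCocycle C} (e : LineCocycle.Rel L M) :
    PatchedModule.ChartIso (D.cech L) (D.cech M) where
  e₀ := (secEquiv e D.U₀).toLinearMap
  e₁ := (secEquiv e D.U₁).toLinearMap
  e := (secEquiv e (D.U₀ ⊓ D.U₁)).toLinearMap
  e_r₀ m := (LineCocycle.Rel.sectMap_restrict e inf_le_left m).symm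
  e_r₁ m := (LineCocycle.Rel.sectMap_restrict e inf_le_right m).symm
  e_X v := (LineCocycle.Rel.sectEquiv (W := D.U₀ ⊓ D.U₁) e).map_smul D.x₀₁ v
  bij₀ := (secEquiv e D.U₀).bijective
  bij₁ := (secEquiv e D.U₁).bijective

/-- The class `ξ` has no cohomology. -/
def AcyclicClass (ξ : Pic C) : Prop :=
  ∀ L : LineCocycle C, Pic.mk L = ξ → Function.Bijective (D.cech L).d

lemma acyclicClass_mk_iff (L : LineCocycle C) :
    D.AcyclicClass (Pic.mk L) ↔ Function.Bijective (D.cech L).d := by
  refine ⟨fun h => h L rfl, fun h M hM => ?_⟩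
  obtain ⟨e⟩ := Pic.mk_eq_mk.mp hM.symm
  exact (D.cechIso e).bijective_d_iff.mpr h

end CurveChart

section baseChange

variable {S : Type u} [CommRing S] [Algebra k S] {C' : Scheme.{u}}
  {c' : C' ⟶ Spec (CommRingCat.of S)} {f : C' ⟶ C} {D : CurveChart c} {D' : CurveChart c'}

/-- The points of the base over which `ξ` has no cohomology. -/
def CurveChart.acyclicSet (D : CurveChart c) (ξ : Pic C) : Set (PrimeSpectrum k) :=
  {p | ∀ L : LineCocycle C, Pic.mk L = ξ → (D.cech L).AcyclicAt p}

/-- Base change of acyclic classes. -/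
theorem ChartBaseChange.acyclicClass_iff (H : ChartBaseChange (S := S) D D' f) (ξ : Pic C) :
    D'.AcyclicClass (Pic.comap f ξ) ↔
      ∀ q : PrimeSpectrum S, PrimeSpectrum.comap (algebraMap k S) q ∈ D.acyclicSet ξ := by
  have key : ∀ L : LineCocycle C, Pic.mk L = ξ → (D'.AcyclicClass (Pic.comap f ξ) ↔
      ∀ q : PrimeSpectrum S, (D.cech L).AcyclicAt (PrimeSpectrum.comap (algebraMap k S) q)) := by
    intro L hL
    rw [← hL, Pic.comap_mk, D'.acyclicClass_mk_iff, H.bijective_d_iff L,
      PatchedModule.bijective_baseChange_d_iff]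
  obtain ⟨L, hL⟩ := Pic.mk_surjective ξ
  refine ⟨fun h q M hM => (key M hM).mp h q, fun h => (key L hL).mpr fun q => h q L hL⟩

namespace CurveChart

variable (D)

lemma acyclicSet_mk (L : LineCocycle C) :
    D.acyclicSet (Pic.mk L) = {p | (D.cech L).AcyclicAt p} := by
  ext p
  refine ⟨fun h => h L rfl, fun h M hM => ?_⟩
  obtain ⟨e⟩ := Pic.mk_eq_mk.mp hM.symm
  let F := D.cechIso e
  let F' : PatchedModule.ChartIso ((D.cech L).baseChange p.asIdeal.ResidueField)
      ((D.cech M).baseChange p.asIdeal.ResidueField) :=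
    { e₀ := F.e₀.baseChange _
      e₁ := F.e₁.baseChange _
      e := F.e.baseChange _
      e_r₀ := fun m => by
        induction m using TensorProduct.induction_on with
        | zero => simp
        | add a b ha hb => simp only [map_add, ha, hb]
        | tmul a m => exact congrArg (a ⊗ₜ[k] ·) (F.e_r₀ m)
      e_r₁ := fun m => by
        induction m using TensorProduct.induction_on with
        | zero => simp
        | add a b ha hb => simp only [map_add, ha, hb]
        | tmul a m => exact congrArg (a ⊗ₜ[k] ·) (F.e_r₁ m)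
      e_X := fun m => by
        induction m using TensorProduct.induction_on with
        | zero => simp
        | add a b ha hb => simp only [map_add, ha, hb]
        | tmul a m => exact congrArg (a ⊗ₜ[k] ·) (F.e_X m)
      bij₀ := ((secEquiv e D.U₀).baseChange k p.asIdeal.ResidueField).bijective
      bij₁ := ((secEquiv e D.U₁).baseChange k p.asIdeal.ResidueField).bijective }
  exact F'.bijective_d_iff.mpr h

/-- The acyclic locus is open. -/
theorem isOpen_acyclicSet (ξ : Pic C) : IsOpen (D.acyclicSet ξ) := by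
  obtain ⟨L, rfl⟩ := Pic.mk_surjective ξ
  rw [D.acyclicSet_mk]
  exact (D.cech L).isOpen_acyclicLocus

/-- A class is acyclic iff its acyclic set is everything. -/
theorem acyclicClass_iff_forall (ξ : Pic C) :
    D.AcyclicClass ξ ↔ ∀ p, p ∈ D.acyclicSet ξ := by
  obtain ⟨L, rfl⟩ := Pic.mk_surjective ξ
  rw [D.acyclicClass_mk_iff, D.acyclicSet_mk]
  exact ⟨fun h p => (D.cech L).bijective_baseChange_d p.asIdeal.ResidueField h,
    fun h => (D.cech L).bijective_of_forall_acyclicAt h⟩

end CurveChart

end baseChange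

end Fermat.Agent.Jacobian
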