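import Fermat.Agent.Jacobian.Cech.Complex
import Fermat.Agent.Jacobian.PatchedModule.Fibre
import Fermat.Agent.Jacobian.PatchedModule.Map
import Fermat.Agent.Jacobian.Relative

/-!
# Base change of the Čech complex
-/

set_option autoImplicit false

noncomputable section

universe u

open CategoryTheory AlgebraicGeometry TensorProduct

namespace Fermat.Agent.Jacobian

variable {k : Type u} [CommRing k] {C : Scheme.{u}} {c : C ⟶ Spec (CommRingCat.of k)}
  (S : Type u) [CommRing S] [Algebra k S] {C' : Scheme.{u}} {c' : C' ⟶ Spec (CommRingCat.of S)}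
  {f : C' ⟶ C}

/-- `f` lies over `Spec S → Spec k`, read on functions. -/
def IsOverBase (c : C ⟶ Spec (CommRingCat.of k)) (c' : C' ⟶ Spec (CommRingCat.of S))
    (f : C' ⟶ C) : Prop :=
  ∀ {U : C.Opens} {V : C'.Opens} (h : V ≤ f ⁻¹ᵁ U) (a : k),
    pb f h (baseHom c U a) = baseHom c' V (algebraMap k S a)

variable {S} (hf : IsOverBase S c c' f) {W : C.Opens} {W' : C'.Opens}

/-- The comparison map on functions. -/
def funComp (hW : W' ≤ f ⁻¹ᵁ W) : S ⊗[k] Fun c W →+ Γ(C', W') :=
  TensorProduct.liftAddHom
    (AddMonoidHom.mk' (fun a => AddMonoidHom.mk' (fun r : Fun c W =>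
        baseHom c' W' a * pb f hW (show Γ(C, W) from r))
      fun r r' => (congrArg (baseHom c' W' a * ·) (map_add (pb f hW) _ _)).trans (mul_add _ _ _))
      fun a a' => AddMonoidHom.ext fun r =>
        show baseHom c' W' (a + a') * _ = baseHom c' W' a * _ + baseHom c' W' a' * _ by
          rw [map_add, add_mul])
    fun b a r => by
      show baseHom c' W' (b • a) * pb f hW _ =
        baseHom c' W' a * pb f hW (show Γ(C, W) from b • r)
      rw [Algebra.smul_def, map_mul, show (show Γ(C, W) from b • r) =
        baseHom c W b * (show Γ(C, W) from r) from rfl, map_mul, hf hW, mul_left_comm, mul_assoc]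

lemma funComp_tmul (hW : W' ≤ f ⁻¹ᵁ W) (a : S) (r : Fun c W) :
    funComp hf hW (a ⊗ₜ r) = baseHom c' W' a * pb f hW (show Γ(C, W) from r) :=
  rfl

lemma LineCocycle.Sect.comap_restrict {X Y : Scheme.{u}} {L : LineCocycle X} (g : Y ⟶ X)
    {A B : X.Opens} {A' B' : Y.Opens} (h : B ≤ A) (h' : B' ≤ A') (hA : A' ≤ g ⁻¹ᵁ A)
    (hB : B' ≤ g ⁻¹ᵁ B) (s : L.Sect A) :
    (s.restrict h).comap g hB = (s.comap g hA).restrict h' :=
  LineCocycle.Sect.ext' fun x => by
    rw [at_restrict, at_comap, at_comap]
    exact pb_res g _ _ _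

variable (L : LineCocycle C)

/-- Comparison on sections. -/
def secComp (hW : W' ≤ f ⁻¹ᵁ W) : S ⊗[k] Sec c L W →ₗ[S] Sec c' (L.comap f) W' :=
  letI : Module k (Sec c' (L.comap f) W') := Module.compHom _ (algebraMap k S)
  haveI : IsScalarTower k S (Sec c' (L.comap f) W') :=
    ⟨fun a b m => by rw [Algebra.smul_def, mul_smul]; rfl⟩
  let g : Sec c L W →ₗ[k] Sec c' (L.comap f) W' :=
    { toFun := fun s => LineCocycle.Sect.comap (L := L) f hW s
      map_add' := fun s t => LineCocycle.Sect.comap_add (L := L) f hW s t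
      map_smul' := fun a s =>
        (LineCocycle.Sect.comap_smul (L := L) f hW (baseHom c W a) s).trans
          (congrArg (fun z : Γ(C', W') => z • LineCocycle.Sect.comap (L := L) f hW s) (hf hW a)) }
  g.liftBaseChange S

lemma secComp_tmul (hW : W' ≤ f ⁻¹ᵁ W) (a : S) (s : Sec c L W) :
    secComp hf L hW (a ⊗ₜ s) =
      a • (show Sec c' (L.comap f) W' from LineCocycle.Sect.comap (L := L) f hW s) := by
  rfl

/-- Sections over an affine open commute with base change as soon as functions do. -/
theorem bijective_secComp (hWa : IsAffineOpen W) (hW : W' ≤ f ⁻¹ᵁ W)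
    (hfun : Function.Bijective (funComp hf hW)) : Function.Bijective (secComp hf L hW) := by
  obtain ⟨n, s, t, hst⟩ := LineCocycle.Sect.exists_partition L hWa
  let σ : Fin n → (Fun c W →ₗ[k] Sec c L W) := fun j =>
    { toFun := fun r => (show Γ(C, W) from r) • (show Sec c L W from s j)
      map_add' := fun r r' => add_smul _ _ _
      map_smul' := fun a r => mul_smul _ _ _ }
  let Ψ : Fin n → (S ⊗[k] Fun c W →ₗ[S] S ⊗[k] Sec c L W) := fun j => (σ j).baseChange S
  have hfw : ∀ j z, secComp hf L hW (Ψ j z) = funComp hf hW z •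
      (show Sec c' (L.comap f) W' from LineCocycle.Sect.comap (L := L) f hW (s j)) := by
    intro j z
    induction z using TensorProduct.induction_on with
    | zero => simp
    | add a b ha hb => rw [map_add, map_add, map_add, ha, hb, add_smul]
    | tmul a r =>
      rw [LinearMap.baseChange_tmul, secComp_tmul, funComp_tmul, mul_smul]
      show baseHom c' W' a • LineCocycle.Sect.comap (L := L) f hW ((show Γ(C, W) from r) • s j) = _
      rw [LineCocycle.Sect.comap_smul]
      rfl
  let e := (AddEquiv.ofBijective _ hfun).symm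
  have he : ∀ z, funComp hf hW (e z) = z := (AddEquiv.ofBijective _ hfun).apply_symm_apply
  let p : Sec c' (L.comap f) W' → Fin n → Γ(C', W') := fun m j =>
    LineCocycle.Sect.pair (L := L.comap f) m (LineCocycle.Sect.comapInv f hW (t j))
  let bw : Sec c' (L.comap f) W' → S ⊗[k] Sec c L W := fun m => ∑ j, Ψ j (e (p m j))
  have he' : ∀ z, e (funComp hf hW z) = z := fun z =>
    (AddEquiv.ofBijective _ hfun).symm_apply_apply z
  have h1 : ∀ m, secComp hf L hW (bw m) = m := by
    intro m
    simp only [bw, map_sum, hfw, he]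
    refine LineCocycle.Sect.sum_pair_smul (L := L.comap f) ?_ m
    have := congrArg (pb f hW) hst
    simpa only [map_sum, map_one, LineCocycle.Sect.pb_pair] using this
  have hp : ∀ (a : S) (m : Sec c L W) (j : Fin n),
      p (secComp hf L hW (a ⊗ₜ m)) j =
        funComp hf hW (a ⊗ₜ (show Fun c W from LineCocycle.Sect.pair (L := L) m (t j))) := by
    intro a m j
    rw [funComp_tmul, secComp_tmul]
    show LineCocycle.Sect.pair (L := L.comap f)
      (baseHom c' W' a • LineCocycle.Sect.comap (L := L) f hW m) _ = _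
    rw [LineCocycle.Sect.pair_smul_left, ← LineCocycle.Sect.pb_pair]
  have hadd : ∀ m m', bw (m + m') = bw m + bw m' := by
    intro m m'
    have hpa : ∀ j, p (m + m') j = p m j + p m' j := fun j =>
      LineCocycle.Sect.pair_add_left (L := L.comap f) m m' _
    simp only [bw, hpa, map_add, Finset.sum_add_distrib]
  have h2 : ∀ z, bw (secComp hf L hW z) = z := by
    intro z
    induction z using TensorProduct.induction_on with
    | zero =>
      have h0 := hadd 0 0
      rw [add_zero] at h0
      rw [map_zero]
      simpa using h0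
    | add a b ha hb => rw [map_add, hadd, ha, hb]
    | tmul a m =>
      simp only [bw, hp]
      have : ∀ j, e (funComp hf hW (a ⊗ₜ (show Fun c W from
          LineCocycle.Sect.pair (L := L) m (t j)))) =
          a ⊗ₜ (show Fun c W from LineCocycle.Sect.pair (L := L) m (t j)) :=
        fun j => he' _
      simp only [this, Ψ, LinearMap.baseChange_tmul, ← TensorProduct.tmul_sum]
      exact congrArg (a ⊗ₜ[k] ·) (LineCocycle.Sect.sum_pair_smul (L := L) hst m)
  exact Function.bijective_iff_has_inverse.mpr ⟨bw, h2, h1⟩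

/-- The data of a base change of two-chart curves. -/
structure ChartBaseChange (D : CurveChart c) (D' : CurveChart c') (f : C' ⟶ C) : Prop where
  over : IsOverBase S c c' f
  le₀ : D'.U₀ ≤ f ⁻¹ᵁ D.U₀
  le₁ : D'.U₁ ≤ f ⁻¹ᵁ D.U₁
  pb_x : pb f le₀ D.x = D'.x
  bij₀ : Function.Bijective (funComp over le₀)
  bij₁ : Function.Bijective (funComp over le₁)

variable {D : CurveChart c} {D' : CurveChart c'} (H : ChartBaseChange (S := S) D D' f)

/-- The Čech complex commutes with base change. -/
def ChartBaseChange.iso :
    PatchedModule.ChartIso ((D.cech L).baseChange S) (D'.cech (L.comap f)) where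
  e₀ := secComp H.over L H.le₀
  e₁ := secComp H.over L H.le₁
  e := secComp H.over L (le_inf (inf_le_left.trans H.le₀) (inf_le_right.trans H.le₁))
  e_r₀ m := by
    induction m using TensorProduct.induction_on with
    | zero => simp
    | add a b ha hb => simp only [map_add, ha, hb]
    | tmul a m =>
      show secComp _ L _ (a ⊗ₜ (D.cech L).r₀ m) = (D'.cech (L.comap f)).r₀ (secComp _ L _ (a ⊗ₜ m))
      rw [secComp_tmul, secComp_tmul, map_smul]
      congr 1
      exact LineCocycle.Sect.comap_restrict (L := L) f inf_le_left inf_le_left H.le₀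
        (le_inf (inf_le_left.trans H.le₀) (inf_le_right.trans H.le₁)) m
  e_r₁ m := by
    induction m using TensorProduct.induction_on with
    | zero => simp
    | add a b ha hb => simp only [map_add, ha, hb]
    | tmul a m =>
      show secComp _ L _ (a ⊗ₜ (D.cech L).r₁ m) = (D'.cech (L.comap f)).r₁ (secComp _ L _ (a ⊗ₜ m))
      rw [secComp_tmul, secComp_tmul, map_smul]
      congr 1
      exact LineCocycle.Sect.comap_restrict (L := L) f inf_le_right inf_le_right H.le₁
        (le_inf (inf_le_left.trans H.le₀) (inf_le_right.trans H.le₁)) m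
  e_X m := by
    induction m using TensorProduct.induction_on with
    | zero => simp
    | add a b ha hb => simp only [map_add, ha, hb]
    | tmul a m =>
      show secComp _ L _ (a ⊗ₜ (D.cech L).X m) = (D'.cech (L.comap f)).X (secComp _ L _ (a ⊗ₜ m))
      rw [secComp_tmul, secComp_tmul, map_smul]
      congr 1
      refine (LineCocycle.Sect.comap_smul (L := L) f _ D.x₀₁ m).trans ?_
      refine congrArg (· • _) ?_
      rw [CurveChart.x₀₁, CurveChart.x₀₁, pb_res, ← H.pb_x, res_pb]
  bij₀ := bijective_secComp H.over L D.affine₀ H.le₀ H.bij₀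
  bij₁ := bijective_secComp H.over L D.affine₁ H.le₁ H.bij₁

include H in
/-- Acyclicity after base change. -/
theorem ChartBaseChange.bijective_d_iff :
    Function.Bijective (D'.cech (L.comap f)).d ↔
      Function.Bijective ((D.cech L).baseChange S).d :=
  (H.iso L).bijective_d_iff

end Fermat.Agent.Jacobian
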