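import Fermat.Agent.Jacobian.Cech.BaseChange
import Mathlib.LinearAlgebra.TensorProduct.Tower
import Mathlib.RingTheory.TensorProduct.Free
import Mathlib.Algebra.Polynomial.Monomial

/-!
# The two-chart presentation of a base change
-/

set_option autoImplicit false

noncomputable section

universe u

open CategoryTheory AlgebraicGeometry TensorProduct Polynomial

namespace Fermat.Agent.Jacobian

variable {k : Type u} [CommRing k] {C : Scheme.{u}} {c : C ⟶ Spec (CommRingCat.of k)}
  (R : Type u) [CommRing R] [Algebra k R]

lemma baseHom_prR (V : (CR c R).Opens) : baseHom (prR c R) V = scalar c R V := rfl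

/-- The projection to the curve lies over the base. -/
theorem isOverBase_prC : IsOverBase R c (prR c R) (prC c R) :=
  fun h a => pb_baseHom c R h a

lemma lineHom_pb_map {U : C.Opens} (x : Γ(C, U)) (p : k[X]) :
    lineHom (prR c R) (pb (prC c R) (le_refl (overU c R U)) x) (p.map (algebraMap k R)) =
      pb (prC c R) (le_refl (overU c R U)) (lineHom c x p) := by
  induction p using Polynomial.induction_on' with
  | add p q hp hq => simp only [Polynomial.map_add, map_add, hp, hq]
  | monomial n a =>
    rw [Polynomial.map_monomial, lineHom, lineHom, coe_eval₂RingHom, coe_eval₂RingHom,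
      eval₂_monomial, eval₂_monomial, map_mul, map_pow, pb_baseHom]
    rfl

/-- A polynomial presentation of a chart stays one after base change. -/
theorem finite_free_lineHom {U : C.Opens} (hU : IsAffineOpen U) (x : Γ(C, U))
    (hfin : (lineHom c x).Finite)
    (hfree : @Module.Free k[X] Γ(C, U) _ _ (lineHom c x).toModule) :
    (lineHom (prR c R) (pb (prC c R) (le_refl (overU c R U)) x)).Finite ∧
      @Module.Free R[X] Γ(CR c R, overU c R U) _ _
        (lineHom (prR c R) (pb (prC c R) (le_refl (overU c R U)) x)).toModule := by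
  let _a : Algebra k[X] Γ(C, U) := (lineHom c x).toAlgebra
  have : Module.Finite k[X] Γ(C, U) := hfin
  have : Module.Free k[X] Γ(C, U) := hfree
  set x' := pb (prC c R) (le_refl (overU c R U)) x with hx'
  let _b : Algebra R[X] Γ(CR c R, overU c R U) := (lineHom (prR c R) x').toAlgebra
  let b := Module.Free.chooseBasis k[X] Γ(C, U)
  let ι := Module.Free.ChooseBasisIndex k[X] Γ(C, U)
  let Φ : (ι →₀ R[X]) →ₗ[R[X]] Γ(CR c R, overU c R U) :=
    Finsupp.linearCombination R[X] fun i => pb (prC c R) (le_refl (overU c R U)) (b i)
  let m : k[X] →ₗ[k] R[X] :=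
    { toFun := Polynomial.map (algebraMap k R)
      map_add' := fun p q => Polynomial.map_add _
      map_smul' := fun a p => by
        rw [RingHom.id_apply, Polynomial.map_smul, ← algebraMap_smul R a] }
  let g : Fun c U →ₗ[k] (ι →₀ R[X]) :=
    { toFun := fun a => (b.repr (show Γ(C, U) from a)).mapRange m (map_zero m)
      map_add' := fun a a' => by
        rw [show b.repr (show Γ(C, U) from a + a') =
            b.repr (show Γ(C, U) from a) + b.repr (show Γ(C, U) from a') from map_add _ _ _,
          Finsupp.mapRange_add (hf' := map_add m)]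
      map_smul' := fun s a => by
        have hs : b.repr (show Γ(C, U) from s • a) = (Polynomial.C s : k[X]) • b.repr (show Γ(C, U) from a) := by
          rw [← map_smul]
          congr 1
          show baseHom c U s * _ = lineHom c x (Polynomial.C s) * _
          rw [lineHom, coe_eval₂RingHom, eval₂_C]
        rw [RingHom.id_apply, hs]
        ext i n
        simp [m, Algebra.smul_def] }
  let Ψ : R ⊗[k] Fun c U →ₗ[R] (ι →₀ R[X]) := g.liftBaseChange R
  have hmap : ∀ f : ι →₀ k[X], Φ (f.mapRange m (map_zero m)) =
      pb (prC c R) (le_refl (overU c R U)) (Finsupp.linearCombination k[X] b f) := by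
    intro f
    induction f using Finsupp.induction_linear with
    | zero => simp
    | add f f' hf hf' =>
      rw [Finsupp.mapRange_add (hf' := map_add m), map_add, map_add, map_add, hf, hf']
    | single i p =>
      simp only [Finsupp.mapRange_single, Φ, Finsupp.linearCombination_single, Algebra.smul_def,
        map_mul]
      exact congrArg (· * _) (lineHom_pb_map R x p)
  have hsmul : ∀ (r : R) (f : ι →₀ R[X]),
      Φ (r • f) = scalar c R (overU c R U) r * Φ f := by
    intro r f
    rw [show r • f = (Polynomial.C r : R[X]) • f from Finsupp.ext fun i => by simp [Polynomial.smul_eq_C_mul],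
      map_smul]
    show lineHom (prR c R) x' (Polynomial.C r) * _ = _
    rw [lineHom, coe_eval₂RingHom, eval₂_C]
    rfl
  have hΦΨ : ∀ z, Φ (Ψ z) = funMap c R (le_refl (overU c R U)) z := by
    intro z
    induction z using TensorProduct.induction_on with
    | zero =>
      refine (congrArg Φ (map_zero Ψ)).trans ?_
      exact (map_zero Φ).trans (map_zero (funMap c R (le_refl (overU c R U)))).symm
    | add a a' ha ha' =>
      refine (congrArg Φ (map_add Ψ a a')).trans ?_
      refine (map_add Φ _ _).trans ((congrArg₂ (· + ·) ha ha').trans ?_)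
      exact (map_add (funMap c R (le_refl (overU c R U))) a a').symm
    | tmul r a =>
      rw [show Ψ (r ⊗ₜ a) = r • g a from LinearMap.liftBaseChange_tmul .., hsmul, funMap_tmul]
      show scalar c R _ r * Φ ((b.repr _).mapRange m (map_zero m)) = _
      rw [hmap, b.linearCombination_repr]
      rfl
  have hbij := bijective_funMap c R hU
  have hΨsurj : Function.Surjective Ψ := by
    intro f
    induction f using Finsupp.induction_linear with
    | zero => exact ⟨0, map_zero _⟩
    | add f f' hf hf' =>
      obtain ⟨z, rfl⟩ := hf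
      obtain ⟨z', rfl⟩ := hf'
      exact ⟨z + z', map_add _ _ _⟩
    | single i p =>
      induction p using Polynomial.induction_on' with
      | add p q hp hq =>
        obtain ⟨z, hz⟩ := hp
        obtain ⟨z', hz'⟩ := hq
        exact ⟨z + z', by rw [map_add, hz, hz', Finsupp.single_add]⟩
      | monomial n r =>
        refine ⟨r ⊗ₜ (show Fun c U from (X : k[X]) ^ n • b i), ?_⟩
        rw [show Ψ (r ⊗ₜ _) = r • g _ from LinearMap.liftBaseChange_tmul ..]
        show r • (b.repr ((X : k[X]) ^ n • b i)).mapRange m (map_zero m) = _
        rw [map_smul, b.repr_self, Finsupp.smul_single, Finsupp.mapRange_single,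
          Finsupp.smul_single]
        simp [m, Polynomial.smul_eq_C_mul, Polynomial.C_mul_X_pow_eq_monomial]
  have hΦ : Function.Bijective Φ := by
    refine ⟨fun f f' h => ?_, fun v => ?_⟩
    · obtain ⟨z, rfl⟩ := hΨsurj f
      obtain ⟨z', rfl⟩ := hΨsurj f'
      rw [hΦΨ, hΦΨ] at h
      rw [hbij.1 h]
    · obtain ⟨z, hz⟩ := hbij.2 v
      exact ⟨Ψ z, (hΦΨ z).trans hz⟩
  exact ⟨Module.Finite.equiv (LinearEquiv.ofBijective Φ hΦ),
    Module.Free.of_equiv (LinearEquiv.ofBijective Φ hΦ)⟩

namespace CurveChart

variable (D : CurveChart c)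

/-- The presentation of the base change. -/
def baseChange : CurveChart (prR c R) where
  U₀ := overU c R D.U₀
  U₁ := overU c R D.U₁
  affine₀ := isAffineOpen_overU c R D.affine₀
  affine₁ := isAffineOpen_overU c R D.affine₁
  cover := overU_cover c R D.cover
  x := pb (prC c R) (le_refl (overU c R D.U₀)) D.x
  y := pb (prC c R) (le_refl (overU c R D.U₁)) D.y
  inf_eq₀ := by
    show prC c R ⁻¹ᵁ (D.U₀ ⊓ D.U₁) = _
    rw [D.inf_eq₀, Scheme.preimage_basicOpen, pb, Scheme.Hom.app_eq_appLE]
  inf_eq₁ := by
    show prC c R ⁻¹ᵁ (D.U₀ ⊓ D.U₁) = _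
    rw [D.inf_eq₁, Scheme.preimage_basicOpen, pb, Scheme.Hom.app_eq_appLE]
  mul_eq := by
    rw [res_pb, res_pb]
    have h := congrArg (pb (prC c R) (le_refl (overU c R (D.U₀ ⊓ D.U₁)))) D.mul_eq
    rwa [map_mul, map_one, pb_res, pb_res] at h
  finite₀ := (finite_free_lineHom R D.affine₀ D.x D.finite₀ D.free₀).1
  finite₁ := (finite_free_lineHom R D.affine₁ D.y D.finite₁ D.free₁).1
  free₀ := (finite_free_lineHom R D.affine₀ D.x D.finite₀ D.free₀).2
  free₁ := (finite_free_lineHom R D.affine₁ D.y D.finite₁ D.free₁).2

lemma funComp_prC {U : C.Opens} (z : R ⊗[k] Fun c U) :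
    funComp (isOverBase_prC (c := c) R) (le_refl (overU c R U)) z =
      funMap c R (le_refl (overU c R U)) z := by
  induction z using TensorProduct.induction_on with
  | zero => exact (map_zero _).trans (map_zero (funMap c R (le_refl (overU c R U)))).symm
  | add a b ha hb =>
    rw [map_add, ha, hb]
    exact (map_add (funMap c R (le_refl (overU c R U))) a b).symm
  | tmul r a => exact (funMap_tmul c R _ r a).symm

/-- The projection is a base change of presentations. -/
theorem chartBaseChange : ChartBaseChange (S := R) D (D.baseChange R) (prC c R) where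
  over := isOverBase_prC R
  le₀ := le_rfl
  le₁ := le_rfl
  pb_x := rfl
  bij₀ := by
    have h := funext (funComp_prC (c := c) R (U := D.U₀))
    exact Eq.mpr (congrArg Function.Bijective h) (bijective_funMap c R D.affine₀)
  bij₁ := by
    have h := funext (funComp_prC (c := c) R (U := D.U₁))
    exact Eq.mpr (congrArg Function.Bijective h) (bijective_funMap c R D.affine₁)

end CurveChart

end Fermat.Agent.Jacobian
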