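import Fermat.Agent.Jacobian.Affine
import Fermat.Agent.Jacobian.Curve.Chart
import Fermat.Agent.Jacobian.PatchedModule.OfProjective
import Mathlib.LinearAlgebra.FreeModule.Basic
import Mathlib.Algebra.Polynomial.Monic
import Mathlib.RingTheory.Finiteness.Basic
import Mathlib.RingTheory.Finiteness.Finsupp

/-!
# The Čech complex of a line bundle on a two-chart curve
-/

set_option autoImplicit false

noncomputable section

universe u

open CategoryTheory AlgebraicGeometry Polynomial

namespace Fermat.Agent.Jacobian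

variable {k : Type u} [CommRing k] {C : Scheme.{u}}

/-- Sections of `L` over `W`, as a `k`-module via the structure map `c`. -/
def Sec (_c : C ⟶ Spec (CommRingCat.of k)) (L : LineCocycle C) (W : C.Opens) : Type u :=
  L.Sect W

namespace Sec

variable {c : C ⟶ Spec (CommRingCat.of k)} {L : LineCocycle C} {W W' : C.Opens}

instance : AddCommGroup (Sec c L W) := inferInstanceAs (AddCommGroup (L.Sect W))

instance : Module Γ(C, W) (Sec c L W) := inferInstanceAs (Module Γ(C, W) (L.Sect W))

instance : Module k (Sec c L W) := Module.compHom _ (baseHom c W)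

lemma smul_def (a : k) (s : Sec c L W) : a • s = baseHom c W a • s := rfl

/-- Multiplication by a function. -/
def mulLin (f : Γ(C, W)) : Sec c L W →ₗ[k] Sec c L W where
  toFun s := f • s
  map_add' s t := smul_add f s t
  map_smul' a s := by
    simp only [smul_def, RingHom.id_apply, ← mul_smul, mul_comm]

@[simp] lemma mulLin_apply (f : Γ(C, W)) (s : Sec c L W) : mulLin f s = f • s := rfl

/-- Restriction. -/
def resLin (h : W' ≤ W) : Sec c L W →ₗ[k] Sec c L W' where
  toFun s := LineCocycle.Sect.restrict h s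
  map_add' s t := LineCocycle.Sect.restrict_add h s t
  map_smul' a s := (LineCocycle.Sect.restrict_smul h _ s).trans
    (congrArg (· • LineCocycle.Sect.restrict h (L := L) s) (res_baseHom c h a))

lemma resLin_smul (h : W' ≤ W) (f : Γ(C, W)) (s : Sec c L W) :
    resLin h (f • s) = res h f • resLin h s :=
  LineCocycle.Sect.restrict_smul h f s

/-- Multiplication by an invertible function. -/
def mulEquiv (f g : Γ(C, W)) (h : f * g = 1) : Sec c L W ≃ₗ[k] Sec c L W :=
  LinearEquiv.ofLinearMap (mulLin f) (mulLin g)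
    (LinearMap.ext fun s => by simp [← mul_smul, h])
    (LinearMap.ext fun s => by simp [← mul_smul, mul_comm g f, h])

lemma mulEquiv_pow (f g : Γ(C, W)) (h : f * g = 1) (n : ℕ) (s : Sec c L W) :
    (mulEquiv f g h ^ n) s = f ^ n • s := by
  induction n with
  | zero => simp
  | succ n ih =>
    rw [pow_succ' (mulEquiv f g h), LinearEquiv.mul_apply, ih, pow_succ', mul_smul]
    rfl

lemma mulEquiv_symm_pow (f g : Γ(C, W)) (h : f * g = 1) (n : ℕ) (s : Sec c L W) :
    ((mulEquiv f g h).symm ^ n) s = g ^ n • s := by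
  induction n with
  | zero => simp
  | succ n ih =>
    rw [pow_succ' (mulEquiv f g h).symm, LinearEquiv.mul_apply, ih, pow_succ', mul_smul]
    rfl

end Sec

namespace LineCocycle.Sect

variable {L : LineCocycle C} {W W' : C.Opens}

lemma res_pair_restrict (h : W' ≤ W) (s : L.Sect W) (t : L.inv.Sect W) :
    res h (s.pair t) = (s.restrict h).pair (t.restrict h) := by
  refine eq_of_cover (fun x => W' ⊓ L.U x) (fun _ => inf_le_left)
    (fun z hz => ⟨z, hz, L.mem z⟩) fun x => ?_
  rw [res_res, res_pair s t x (inf_le_left.trans h) inf_le_right,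
    res_pair (s.restrict h) (t.restrict h) x inf_le_left inf_le_right, at_restrict, at_restrict]

lemma zero_pair (t : L.inv.Sect W) : (0 : L.Sect W).pair t = 0 :=
  map_zero (pairLeft t)

/-- Sections over a principal open of an affine open extend, up to a power of the function. -/
theorem exists_extend {O B : C.Opens} (hO : IsAffineOpen O) (b : Γ(C, O)) (hB : B = C.basicOpen b)
    (hBO : B ≤ O) (L : LineCocycle C) (v : L.Sect B) :
    ∃ (n : ℕ) (s : L.Sect O), s.restrict hBO = res hBO b ^ n • v := by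
  obtain ⟨m, s, t, hst⟩ := exists_partition L hO
  choose n a ha using fun j => exists_res_eq_pow_mul hO b hB hBO (v.pair ((t j).restrict hBO))
  set N := Finset.univ.sup n with hN
  refine ⟨N, ∑ j, (b ^ (N - n j) * a j) • s j, ?_⟩
  have hB1 : ∑ j, ((s j).restrict hBO).pair ((t j).restrict hBO) = 1 := by
    have := congrArg (res hBO) hst
    simpa only [map_sum, map_one, res_pair_restrict hBO] using this
  conv_rhs => rw [← sum_pair_smul hB1 v, Finset.smul_sum]
  let r : L.Sect O →+ L.Sect B := AddMonoidHom.mk' (restrict hBO) (restrict_add hBO)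
  show r _ = _
  rw [map_sum]
  refine Finset.sum_congr rfl fun j _ => ?_
  show restrict hBO _ = _
  rw [restrict_smul, map_mul, map_pow, ha j, ← mul_assoc, ← pow_add,
    Nat.sub_add_cancel (Finset.le_sup (Finset.mem_univ j) : n j ≤ N), ← mul_smul]

/-- A section killed by restriction to a principal open is killed by a power of the function. -/
theorem exists_pow_smul_eq_zero {O B : C.Opens} (hO : IsAffineOpen O) (b : Γ(C, O))
    (hB : B = C.basicOpen b) (hBO : B ≤ O) (L : LineCocycle C) (s : L.Sect O)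
    (h : s.restrict hBO = 0) : ∃ n : ℕ, b ^ n • s = 0 := by
  obtain ⟨m, s', t, hst⟩ := exists_partition L hO
  choose n hn using fun j => exists_pow_mul_eq_zero hO b (s.pair (t j)) hB hBO
    (by rw [res_pair_restrict, h, zero_pair])
  refine ⟨Finset.univ.sup n, ?_⟩
  rw [← sum_pair_smul hst s, Finset.smul_sum]
  refine Finset.sum_eq_zero fun j _ => ?_
  obtain ⟨d, hd⟩ := Nat.exists_eq_add_of_le (Finset.le_sup (f := n) (Finset.mem_univ j))
  rw [hd, ← mul_smul, pow_add, mul_right_comm, hn j, zero_mul, zero_smul]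

end LineCocycle.Sect

variable {c : C ⟶ Spec (CommRingCat.of k)}

/-- `X ^ n` is a nonzerodivisor on a free module. -/
lemma eq_zero_of_X_pow_smul {M : Type*} [AddCommGroup M] [Module k[X] M] [Module.Free k[X] M]
    {n : ℕ} {m : M} (h : (X : k[X]) ^ n • m = 0) : m = 0 := by
  apply (Module.Free.chooseBasis k[X] M).repr.injective
  rw [map_zero]
  ext1 i
  have := congrArg (fun z => (Module.Free.chooseBasis k[X] M).repr z i) h
  simp only [map_smul, map_zero, Finsupp.smul_apply, Finsupp.zero_apply, smul_eq_mul] at this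
  exact (monic_X_pow n).isRegular.left.eq_iff.mp (this.trans (mul_zero _).symm)

/-- Sections on a chart have a frame over the line. -/
theorem nonempty_frame_sec {U : C.Opens} (hU : IsAffineOpen U) (f : Γ(C, U))
    (hfin : (lineHom c f).Finite) (hfree : @Module.Free k[X] Γ(C, U) _ _ (lineHom c f).toModule)
    (L : LineCocycle C) : Nonempty (Frame (Sec.mulLin f : Sec c L U →ₗ[k] Sec c L U)) := by
  let _a : Algebra k[X] Γ(C, U) := (lineHom c f).toAlgebra
  have : Module.Finite k[X] Γ(C, U) := hfin
  have : Module.Free k[X] Γ(C, U) := hfree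
  let _m : Module k[X] (Sec c L U) := Module.compHom _ (lineHom c f)
  have : IsScalarTower k[X] Γ(C, U) (Sec c L U) :=
    ⟨fun p a s => mul_smul (lineHom c f p) a s⟩
  have : IsScalarTower k k[X] (Sec c L U) := ⟨fun a p s => by
    show lineHom c f (a • p) • s = baseHom c U a • (lineHom c f p • s)
    rw [Polynomial.smul_eq_C_mul, map_mul, mul_smul]
    congr 1
    exact eval₂_C _ _⟩
  obtain ⟨n, s, t, hst⟩ := LineCocycle.Sect.exists_partition L hU
  let ι : Sec c L U →ₗ[Γ(C, U)] (Fin n → Γ(C, U)) := LineCocycle.Sect.coords t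
  let π : (Fin n → Γ(C, U)) →ₗ[Γ(C, U)] Sec c L U := LineCocycle.Sect.ofCoords s
  have hπι : ∀ e, π (ι e) = e := LineCocycle.Sect.ofCoords_coords hst
  have : Module.Projective k[X] (Sec c L U) :=
    Module.Projective.of_split (ι.restrictScalars k[X]) (π.restrictScalars k[X])
      (LinearMap.ext hπι)
  have : Module.Finite k[X] (Sec c L U) :=
    Module.Finite.of_surjective (π.restrictScalars k[X]) fun e => ⟨_, hπι e⟩
  let e : Module.AEval' (Sec.mulLin f : Sec c L U →ₗ[k] Sec c L U) ≃ₗ[k[X]] Sec c L U :=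
    LinearEquiv.ofAEval _ (LinearEquiv.refl k _) fun m => by
      show f • m = lineHom c f X • m
      simp [lineHom]
  have : Module.Projective k[X] (Module.AEval' (Sec.mulLin f : Sec c L U →ₗ[k] Sec c L U)) :=
    Module.Projective.of_equiv e.symm
  have : Module.Finite k[X] (Module.AEval' (Sec.mulLin f : Sec c L U →ₗ[k] Sec c L U)) :=
    Module.Finite.equiv e.symm
  exact nonempty_frame_of_projective _

/-- A power of the coordinate is a nonzerodivisor on sections over its chart. -/
theorem eq_zero_of_pow_smul {U : C.Opens} (hU : IsAffineOpen U) (f : Γ(C, U))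
    (hfree : @Module.Free k[X] Γ(C, U) _ _ (lineHom c f).toModule)
    (L : LineCocycle C) {n : ℕ} {s : L.Sect U} (h : f ^ n • s = 0) : s = 0 := by
  obtain ⟨m, s', t, hst⟩ := LineCocycle.Sect.exists_partition L hU
  rw [← LineCocycle.Sect.sum_pair_smul hst s]
  refine Finset.sum_eq_zero fun j _ => ?_
  let _a : Module k[X] Γ(C, U) := (lineHom c f).toModule
  have h1 : (X : k[X]) ^ n • s.pair (t j) = 0 := by
    show lineHom c f (X ^ n) * s.pair (t j) = 0
    rw [map_pow, show lineHom c f X = f by simp [lineHom],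
      ← LineCocycle.Sect.pair_smul_left, h, LineCocycle.Sect.zero_pair]
  rw [eq_zero_of_X_pow_smul (M := Γ(C, U)) h1, zero_smul]

namespace CurveChart

variable (D : CurveChart c)

/-- `x` on the overlap. -/
def x₀₁ : Γ(C, D.U₀ ⊓ D.U₁) := res inf_le_left D.x

/-- `y` on the overlap. -/
def y₀₁ : Γ(C, D.U₀ ⊓ D.U₁) := res inf_le_right D.y

/-- The Čech complex of `L`. -/
def cech (L : LineCocycle C) :
    PatchedModule k (Sec c L D.U₀) (Sec c L D.U₁) (Sec c L (D.U₀ ⊓ D.U₁)) where
  x := Sec.mulLin D.x
  y := Sec.mulLin D.y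
  X := Sec.mulEquiv D.x₀₁ D.y₀₁ D.mul_eq
  r₀ := Sec.resLin inf_le_left
  r₁ := Sec.resLin inf_le_right
  r₀_x s := Sec.resLin_smul _ _ s
  r₁_y s := Sec.resLin_smul _ _ s
  injective_r₀ := (injective_iff_map_eq_zero _).mpr fun s h => by
    obtain ⟨n, hn⟩ :=
      LineCocycle.Sect.exists_pow_smul_eq_zero D.affine₀ D.x D.inf_eq₀ inf_le_left L s h
    exact eq_zero_of_pow_smul D.affine₀ D.x D.free₀ L hn
  injective_r₁ := (injective_iff_map_eq_zero _).mpr fun s h => by
    obtain ⟨n, hn⟩ :=
      LineCocycle.Sect.exists_pow_smul_eq_zero D.affine₁ D.y D.inf_eq₁ inf_le_right L s h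
    exact eq_zero_of_pow_smul D.affine₁ D.y D.free₁ L hn
  exhaust₀ v := by
    obtain ⟨n, s, hs⟩ :=
      LineCocycle.Sect.exists_extend D.affine₀ D.x D.inf_eq₀ inf_le_left L v
    exact ⟨n, s, hs.trans (Sec.mulEquiv_pow (c := c) _ _ D.mul_eq n v).symm⟩
  exhaust₁ v := by
    obtain ⟨n, s, hs⟩ :=
      LineCocycle.Sect.exists_extend D.affine₁ D.y D.inf_eq₁ inf_le_right L v
    exact ⟨n, s, hs.trans (Sec.mulEquiv_symm_pow (c := c) _ _ D.mul_eq n v).symm⟩
  frame₀ := (nonempty_frame_sec D.affine₀ D.x D.finite₀ D.free₀ L).some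
  frame₁ := (nonempty_frame_sec D.affine₁ D.y D.finite₁ D.free₁ L).some

/-- A pair of sections on the charts agreeing on the overlap glues to a global section. -/
theorem exists_glue_of_d_eq_zero (L : LineCocycle C) (z : Sec c L D.U₀ × Sec c L D.U₁)
    (h : (D.cech L).d z = 0) :
    ∃ s : L.Sect ⊤, s.restrict le_top = z.1 ∧ s.restrict le_top = z.2 := by
  rw [PatchedModule.d_apply, sub_eq_zero] at h
  let O : Bool → C.Opens := fun b => bif b then D.U₁ else D.U₀
  let t : ∀ b, L.Sect (O b)
    | false => z.1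
    | true => z.2
  have hat : ∀ (x : C) (V : C.Opens) (h0 : V ≤ D.U₀) (h1 : V ≤ D.U₁) (hx : V ≤ L.U x),
      LineCocycle.Sect.at (L := L) z.1 x h0 hx = LineCocycle.Sect.at (L := L) z.2 x h1 hx := by
    intro x V h0 h1 hx
    have h2 := congrArg
      (fun s : L.Sect (D.U₀ ⊓ D.U₁) => s.at x (le_inf h0 h1) hx) h
    refine ((LineCocycle.Sect.at_restrict (L := L) inf_le_left z.1 x (le_inf h0 h1) hx).symm.trans
      h2).trans ?_
    exact LineCocycle.Sect.at_restrict (L := L) inf_le_right z.2 x (le_inf h0 h1) hx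
  obtain ⟨s, hs⟩ := LineCocycle.Sect.exists_glue O (W := ⊤) (fun _ => le_top)
    (fun p _ => ((D.cover.ge (Set.mem_univ p) : p ∈ D.U₀ ⊔ D.U₁)).elim
      (fun hp => ⟨false, hp⟩) fun hp => ⟨true, hp⟩) t fun i j x V hi hj hx => by
      cases i <;> cases j
      · rfl
      · exact hat x V hi hj hx
      · exact (hat x V hj hi hx).symm
      · rfl
  exact ⟨s, hs false, hs true⟩

end CurveChart

end Fermat.Agent.Jacobian
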